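import Fermat.Agent.S18.H4489.OrbitOrd
import Fermat.Agent.S24.Modular

/-!
# S18 / CH0 (helper4489): characteristic-zero ramification of `X₀(N) → X(1)`

For the function field `F = ℚ̄(X₀(N))` (`modularFunctionFieldBar N`) and `j = jBar N`:
* over `j = 0` every place has `ord j ∈ {1, 3}`;
* over `j = 1728` every place has `ord (j - 1728) ∈ {1, 2}`;
* over `j = ∞` every place has `- ord j ∣ N`;
* elsewhere `ord (j - c) = 1` (this is `Fermat.Agent.S24.ord_eq_one_of_ne`).
-/

set_option autoImplicit false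
set_option linter.style.haveILetI false
open AlgebraicCurve IntermediateField ModularCurve
open scoped MatrixGroups

namespace Fermat.Agent.S18.H4489

open Fermat.Agent.S24 Fermat.Agent.S24.B4Glue

section generic

variable {K F : Type*} [Field K] [Field F] [Algebra K F]

/-- PART P with ramification indices, for a field with a group action. -/
theorem ord_dvd_of_action [IsAlgClosed K] [CharZero K]
    (x : F) (hx : Transcendental K x) [FiniteDimensional K⟮x⟯ F] (c : K)
    {M : Type*} [Field M] (w : Valuation M (WithZero (Multiplicative ℤ)))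
    {G : Type*} [Group G] (H : Subgroup G) [Finite (G ⧸ H)]
    (hcard : Nat.card (G ⧸ H) = Module.finrank K⟮x⟯ F)
    (act : G →* (M ≃+* M)) (Θ : F →+* M)
    (hH : ∀ γ ∈ H, ∀ f, act γ (Θ f) = Θ f)
    (hinj : ∀ γ, (∀ f, act γ (Θ f) = Θ f) → γ ∈ H)
    (hK : ∀ γ (a : K), act γ (Θ (algebraMap K F a)) = Θ (algebraMap K F a))
    (hxinv : ∀ γ, act γ (Θ x) = Θ x)
    (m : ℕ) (hm : 0 < m)
    (hwx : w (Θ (x - algebraMap K F c)) = WithZero.exp (-(m : ℤ)))
    (g : G) (hgm : ∀ γ : G, γ⁻¹ * g ^ m * γ ∈ H)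
    (hgw : ∀ y : M, w (act g y) = w y)
    (hdiv : ∀ k : ℕ, 0 < k → k ∣ m → ∀ y : M, y ≠ 0 → act (g ^ k) y = y →
      ((m / k : ℕ) : ℤ) ∣ WithZero.log (w y))
    (v : Place K F) (hv : 0 < v.ord (x - algebraMap K F c)) :
    ∃ k : ℕ, k ∣ m ∧ v.ord (x - algebraMap K F c) = (k : ℤ) := by
  classical
  have hgmq : ∀ q : G ⧸ H, g ^ m • q = q := by
    intro q
    induction q using QuotientGroup.induction_on with
    | H γ =>
    show ((g ^ m * γ : G) : G ⧸ H) = (γ : G ⧸ H)
    rw [eq_comm, QuotientGroup.eq]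
    simpa [mul_assoc] using hgm γ
  refine ord_dvd_of_orbit x hx c w hcard (cosetEmb H act Θ hH)
    (cosetEmb_injective H act Θ hH hinj) ?_ ?_ m hm ?_ g hgmq ?_ ?_ v hv
  · intro q q' a
    induction q using QuotientGroup.induction_on with
    | H γ =>
    induction q' using QuotientGroup.induction_on with
    | H γ' =>
    rw [cosetEmb_mk, cosetEmb_mk, hK, hK]
  · intro q q'
    induction q using QuotientGroup.induction_on with
    | H γ =>
    induction q' using QuotientGroup.induction_on with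
    | H γ' =>
    rw [cosetEmb_mk, cosetEmb_mk, hxinv, hxinv]
  · intro q
    induction q using QuotientGroup.induction_on with
    | H γ =>
    rw [cosetEmb_mk, map_sub, map_sub, hK, hxinv, ← map_sub, hwx]
  · intro q f
    induction q using QuotientGroup.induction_on with
    | H γ =>
    show w (cosetEmb H act Θ hH ((g * γ : G) : G ⧸ H) f) = _
    rw [cosetEmb_mk, cosetEmb_mk, map_mul]
    exact hgw _
  · intro q f hf
    have hk := pow_card_orbit_smul g q
    have hkm := card_orbit_dvd g q m (hgmq q)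
    set k := Nat.card (MulAction.orbit (Subgroup.zpowers g) q) with hkdef
    have hk0 : 0 < k := Nat.pos_of_dvd_of_pos hkm hm
    induction q using QuotientGroup.induction_on with
    | H γ =>
    have hmem : γ⁻¹ * g ^ k * γ ∈ H := by
      have h1 : ((g ^ k * γ : G) : G ⧸ H) = (γ : G ⧸ H) := hk
      rw [eq_comm, QuotientGroup.eq] at h1
      simpa [mul_assoc] using h1
    rw [cosetEmb_mk]
    refine hdiv k hk0 hkm _ ?_ ?_
    · intro h0
      have : Θ f = 0 := by
        have := congrArg (act γ).symm h0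
        simpa using this
      exact hf ((map_eq_zero Θ).mp this)
    · have h2 : g ^ k * γ = γ * (γ⁻¹ * g ^ k * γ) := by group
      show (act (g ^ k) * act γ) (Θ f) = act γ (Θ f)
      rw [← map_mul, h2, map_mul]
      show act γ (act (γ⁻¹ * g ^ k * γ) (Θ f)) = act γ (Θ f)
      rw [hH _ hmem f]

/-- PART P with ramification indices at a pole. -/
theorem ord_dvd_of_action_infty [IsAlgClosed K] [CharZero K]
    (x : F) (hx : Transcendental K x) [FiniteDimensional K⟮x⟯ F]
    {M : Type*} [Field M] (w : Valuation M (WithZero (Multiplicative ℤ)))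
    {G : Type*} [Group G] (H : Subgroup G) [Finite (G ⧸ H)]
    (hcard : Nat.card (G ⧸ H) = Module.finrank K⟮x⟯ F)
    (act : G →* (M ≃+* M)) (Θ : F →+* M)
    (hH : ∀ γ ∈ H, ∀ f, act γ (Θ f) = Θ f)
    (hinj : ∀ γ, (∀ f, act γ (Θ f) = Θ f) → γ ∈ H)
    (hK : ∀ γ (a : K), act γ (Θ (algebraMap K F a)) = Θ (algebraMap K F a))
    (hxinv : ∀ γ, act γ (Θ x) = Θ x)
    (m : ℕ) (hm : 0 < m)
    (hwx : w (Θ x) = WithZero.exp (m : ℤ))
    (g : G) (hgm : ∀ γ : G, γ⁻¹ * g ^ m * γ ∈ H)
    (hgw : ∀ y : M, w (act g y) = w y)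
    (hdiv : ∀ k : ℕ, 0 < k → k ∣ m → ∀ y : M, y ≠ 0 → act (g ^ k) y = y →
      ((m / k : ℕ) : ℤ) ∣ WithZero.log (w y))
    (v : Place K F) (hv : v.ord x < 0) :
    ∃ k : ℕ, k ∣ m ∧ v.ord x = -(k : ℤ) := by
  have : FiniteDimensional K⟮x⁻¹⟯ F := finiteDimensional_congr_adjoin (adjoin_inv_eq x).symm
  have hv' : 0 < v.ord (x⁻¹ - algebraMap K F 0) := by
    rw [map_zero, sub_zero, Place.ord_inv]
    omega
  obtain ⟨k, hk, hk'⟩ := ord_dvd_of_action x⁻¹ (transcendental_inv hx) (0 : K) w H
    (hcard.trans (finrank_congr_adjoin (adjoin_inv_eq x).symm)) act Θ hH hinj hK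
    (fun γ => by rw [map_inv₀, map_inv₀, hxinv]) m hm
    (by rw [map_zero, sub_zero, map_inv₀, map_inv₀, hwx, ← WithZero.exp_neg]) g hgm hgw hdiv v hv'
  refine ⟨k, hk, ?_⟩
  rw [map_zero, sub_zero, Place.ord_inv] at hk'
  omega

end generic

section modular

variable (N : ℕ) [NeZero N]

/-- Over `j = 1728` the ramification index is `1` or `2`. -/
theorem ord_jBar_sub_1728 (v : Place (AlgebraicClosure ℚ) ↥(modularFunctionFieldBar N))
    (hv : 0 < v.ord (jBar N - algebraMap _ _ (1728 : AlgebraicClosure ℚ))) :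
    v.ord (jBar N - algebraMap _ _ (1728 : AlgebraicClosure ℚ)) = 1 ∨
      v.ord (jBar N - algebraMap _ _ (1728 : AlgebraicClosure ℚ)) = 2 := by
  haveI := finiteDimensional_jBar N
  obtain ⟨k, hk, hk'⟩ := ord_dvd_of_action (jBar N) (jBar_transcendental N)
    (1728 : AlgebraicClosure ℚ) (ordAt N UpperHalfPlane.I) (CongruenceSubgroup.Gamma0 N)
    (finrank_jBar N).symm (b6_act N) (Theta N) (b6_hH N) (b6_hinj N) (b6_hK N) (b6_hxinv N)
    2 (by norm_num) (by
      have h := b6_ordAt_sub N (1728 : AlgebraicClosure ℚ) UpperHalfPlane.I 2 (by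
        rw [b6_iotaC_ofNat]
        exact_mod_cast analyticOrderAt_jC_sub_1728 UpperHalfPlane.I jC_I)
      exact_mod_cast h) ModularGroup.S (by
      intro γ
      rw [b6_S_sq]
      exact b6_conj_neg_one_mem N γ) (by
      intro y
      rw [b6_act_apply, ordAt_modAut]
      congr 2
      rw [inv_smul_eq_iff, S_smul_I]) (by
      intro k hk hkm y hy hinv
      have hk2 : k ≤ 2 := Nat.le_of_dvd (by norm_num) hkm
      interval_cases k
      · rw [pow_one, b6_act_apply] at hinv
        simpa using two_dvd_log_ordAt_I N y hy hinv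
      · simp) v hv
  have hk2 : k = 1 ∨ k = 2 := by
    have hle : k ≤ 2 := Nat.le_of_dvd (by norm_num) hk
    interval_cases k <;> simp_all
  rcases hk2 with rfl | rfl
  · left; exact_mod_cast hk'
  · right; exact_mod_cast hk'

/-- Over `j = 0` the ramification index is `1` or `3`. -/
theorem ord_jBar_sub_zero (v : Place (AlgebraicClosure ℚ) ↥(modularFunctionFieldBar N))
    (hv : 0 < v.ord (jBar N - algebraMap _ _ (0 : AlgebraicClosure ℚ))) :
    v.ord (jBar N - algebraMap _ _ (0 : AlgebraicClosure ℚ)) = 1 ∨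
      v.ord (jBar N - algebraMap _ _ (0 : AlgebraicClosure ℚ)) = 3 := by
  haveI := finiteDimensional_jBar N
  obtain ⟨k, hk, hk'⟩ := ord_dvd_of_action (jBar N) (jBar_transcendental N)
    (0 : AlgebraicClosure ℚ) (ordAt N rhoH) (CongruenceSubgroup.Gamma0 N)
    (finrank_jBar N).symm (b6_act N) (Theta N) (b6_hH N) (b6_hinj N) (b6_hK N) (b6_hxinv N)
    3 (by norm_num) (by
      have h := b6_ordAt_sub N (0 : AlgebraicClosure ℚ) rhoH 3 (by
        rw [map_zero]
        simp only [sub_zero]
        exact_mod_cast analyticOrderAt_jC_zero rhoH jC_rhoH)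
      exact_mod_cast h) (ModularGroup.S * ModularGroup.T) (by
      intro γ
      rw [b6_ST_cube]
      exact b6_conj_neg_one_mem N γ) (by
      intro y
      rw [b6_act_apply, ordAt_modAut]
      congr 2
      rw [inv_smul_eq_iff, ST_smul_rhoH]) (by
      intro k hk hkm y hy hinv
      have hk3 : k ≤ 3 := Nat.le_of_dvd (by norm_num) hkm
      interval_cases k
      · rw [pow_one, b6_act_apply] at hinv
        simpa using three_dvd_log_ordAt_rhoH N y hy hinv
      · norm_num at hkm
      · simp) v hv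
  have hk3 : k = 1 ∨ k = 3 := by
    have hle : k ≤ 3 := Nat.le_of_dvd (by norm_num) hk
    interval_cases k <;> simp_all
  rcases hk3 with rfl | rfl
  · left; exact_mod_cast hk'
  · right; exact_mod_cast hk'

/-- Over `j = 0`, stated for `jBar N` itself. -/
theorem ord_jBar_zero (v : Place (AlgebraicClosure ℚ) ↥(modularFunctionFieldBar N))
    (hv : 0 < v.ord (jBar N)) : v.ord (jBar N) = 1 ∨ v.ord (jBar N) = 3 := by
  have h := ord_jBar_sub_zero N v (by rwa [map_zero, sub_zero])
  rwa [map_zero, sub_zero] at h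

/-- Over `j = ∞` the ramification index divides `N`. -/
theorem ord_jBar_infty (v : Place (AlgebraicClosure ℚ) ↥(modularFunctionFieldBar N))
    (hv : v.ord (jBar N) < 0) : ∃ k : ℕ, k ∣ N ∧ v.ord (jBar N) = -(k : ℤ) := by
  haveI := finiteDimensional_jBar N
  refine ord_dvd_of_action_infty (jBar N) (jBar_transcendental N)
    (ordInf N) (CongruenceSubgroup.Gamma0 N)
    (finrank_jBar N).symm (b6_act N) (Theta N) (b6_hH N) (b6_hinj N) (b6_hK N) (b6_hxinv N)
    N (Nat.pos_of_ne_zero (NeZero.ne N)) ?_ ModularGroup.T ?_ ?_ ?_ v hv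
  · rw [b6_Theta_jBar]
    have hN : (N : ℂ) ≠ 0 := Nat.cast_ne_zero.mpr (NeZero.ne N)
    have h := ordInf_algebraMap N (jdHol N 1 (one_dvd N)) (-(N : ℤ)) 1 one_ne_zero (by
      have hfun : (fun τ : UpperHalfPlane => (jdHol N 1 (one_dvd N)).1 τ *
          Complex.exp (-(2 * Real.pi * Complex.I * ((-(N : ℤ) : ℤ) : ℂ) * τ / N)))
          = fun τ : UpperHalfPlane => jC τ * Complex.exp (2 * Real.pi * Complex.I * τ) := by
        funext τ
        rw [b6_jdHol_one_apply]
        congr 2
        push_cast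
        field_simp
      rw [hfun]
      exact jC_mul_q_tendsto)
    rw [h, neg_neg]
  · intro γ
    exact b6_conj_T_pow_mem N γ
  · intro y
    rw [b6_act_apply, ordInf_modAut_T]
  · intro k hk hkN y hy hinv
    rw [b6_act_apply] at hinv
    exact dvd_log_ordInf N y hy k hkN hinv

end modular

end Fermat.Agent.S18.H4489
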