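import Fermat.Agent.S24.B4Glue

/-!
# S18 / CH0 (helper4489): ramification indices from the orbit lemma of S24

Strengthening of `Fermat.Agent.S24.card_placesOver_eq_numOrbits` (PART P of S24): under the
same hypotheses, the order of `x - c` at a place over `c` is the size of an orbit of `g`; in
particular it divides `m`.
-/

set_option autoImplicit false
set_option linter.style.haveILetI false
open AlgebraicCurve IntermediateField

namespace Fermat.Agent.S18.H4489

open Fermat.Agent.S24 Fermat.Agent.S24.OP2848 WithZero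

/-- PART P of S24 with the ramification indices: every place over `c` has
`ord (x - c) = |orbit of some q|`. -/
theorem ord_eq_card_orbit {K F : Type*} [Field K] [Field F] [Algebra K F]
    [IsAlgClosed K] [CharZero K]
    (x : F) (hx : Transcendental K x) [FiniteDimensional K⟮x⟯ F] (c : K)
    {M : Type*} [Field M] (w : Valuation M (WithZero (Multiplicative ℤ)))
    {Q : Type*} [Finite Q] (hQ : Nat.card Q = Module.finrank K⟮x⟯ F)
    (σ : Q → F →+* M) (hσ : Function.Injective σ)
    (hbase : ∀ q q' (a : K), σ q (algebraMap K F a) = σ q' (algebraMap K F a))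
    (hbasex : ∀ q q', σ q x = σ q' x)
    (m : ℕ) (hm : 0 < m)
    (hwx : ∀ q, w (σ q (x - algebraMap K F c)) = WithZero.exp (-(m : ℤ)))
    {G : Type*} [Group G] [MulAction G Q] (g : G) (hg : ∀ q : Q, g ^ m • q = q)
    (hgw : ∀ q (f : F), w (σ (g • q) f) = w (σ q f))
    (hdiv : ∀ q (f : F), f ≠ 0 →
      ((m / Nat.card (MulAction.orbit (Subgroup.zpowers g) q) : ℕ) : ℤ) ∣
        WithZero.log (w (σ q f)))
    (v : Place K F) (hv : 0 < v.ord (x - algebraMap K F c)) :
    ∃ q : Q, v.ord (x - algebraMap K F c) =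
      (Nat.card (MulAction.orbit (Subgroup.zpowers g) q) : ℤ) := by
  classical
  haveI : Fintype Q := Fintype.ofFinite Q
  set s : F := x - algebraMap K F c with hs_def
  have hs : Transcendental K s := transcendental_sub_const hx c
  have hadj : K⟮s⟯ = K⟮x⟯ := adjoin_sub_const x c
  haveI : FiniteDimensional K⟮s⟯ F := finiteDimensional_congr_intermediate hadj
  have hfin : Module.finrank K⟮s⟯ F = Module.finrank K⟮x⟯ F := finrank_congr_intermediate hadj
  have hs0 : s ≠ 0 := by
    rintro h
    exact hs (h ▸ isAlgebraic_zero)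
  have hbases : ∀ q q', σ q s = σ q' s := fun q q' => by
    rw [hs_def, map_sub, map_sub, hbasex q q', hbase q q']
  have hK : ∀ q (a : K), (w.comap (σ q)) (algebraMap K F a) ≤ 1 := fun q a =>
    val_const_le_one w (σ q) a
  have hws' : ∀ q, w (σ q s) = exp (-(m : ℤ)) := hwx
  have hws : ∀ q, (w.comap (σ q)) s < 1 := fun q => by
    rw [Valuation.comap_apply, hws' q, ← exp_zero, exp_lt_exp]
    omega
  let vq : Q → Place K F := fun q => placeOfVal (w.comap (σ q)) (hK q) s hs0 (hws q)
  obtain ⟨S, hS, hsum⟩ := exists_finset_zeros_sum_ord s hs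
  have hvqS : ∀ q, vq q ∈ S := fun q =>
    (hS _).mpr ((placeOfVal_ord_pos_iff (w.comap (σ q)) (hK q) s hs0 (hws q) hs0).mpr (hws q))
  -- the place only depends on the orbit
  have hvg : ∀ q, vq (g • q) = vq q := by
    intro q
    apply Place.ext
    ext f
    show (w.comap (σ (g • q))) f ≤ 1 ↔ (w.comap (σ q)) f ≤ 1
    rw [Valuation.comap_apply, Valuation.comap_apply, hgw]
  have hvginv : ∀ q, vq (g⁻¹ • q) = vq q := by
    intro q
    have h := hvg (g⁻¹ • q)
    rw [smul_inv_smul] at h
    exact h.symm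
  have hvz : ∀ k : ℤ, ∀ q, vq (g ^ k • q) = vq q := by
    intro k
    induction k using Int.induction_on with
    | zero => intro q; simp
    | succ k ih =>
      intro q
      rw [zpow_add_one, mul_smul, ih, hvg]
    | pred k ih =>
      intro q
      rw [zpow_sub_one, mul_smul, ih, hvginv]
  have hvorb : ∀ q q', q' ∈ MulAction.orbit (Subgroup.zpowers g) q → vq q' = vq q := by
    rintro q q' ⟨⟨h, hh⟩, rfl⟩
    obtain ⟨k, rfl⟩ := Subgroup.mem_zpowers_iff.mp hh
    exact hvz k q
  -- ramification is bounded by the orbit size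
  have he : ∀ q, (vq q).ord s ≤ (Nat.card (MulAction.orbit (Subgroup.zpowers g) q) : ℤ) := by
    intro q
    obtain ⟨d, hd, ⟨π, hπ0, hπ⟩, hlog⟩ :=
      exists_log_val_eq (w.comap (σ q)) (hK q) s hs0 (hws q)
    have h1 := hlog s hs0
    rw [Valuation.comap_apply, hws' q, log_exp] at h1
    have h2 := hdiv q π hπ0
    rw [Valuation.comap_apply] at hπ
    rw [hπ] at h2
    have hdvd : Nat.card (MulAction.orbit (Subgroup.zpowers g) q) ∣ m := by
      haveI : Fintype (MulAction.orbit (Subgroup.zpowers g) q) := Fintype.ofFinite _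
      rw [Nat.card_eq_fintype_card, ← MulAction.minimalPeriod_eq_card]
      apply Function.IsPeriodicPt.minimalPeriod_dvd
      show (g • ·)^[m] q = q
      rw [smul_iterate_apply]
      exact hg q
    set N := Nat.card (MulAction.orbit (Subgroup.zpowers g) q) with hN
    set k := m / N with hk
    have hkN : k * N = m := Nat.div_mul_cancel hdvd
    have h3 : (k : ℤ) ∣ d := (dvd_neg).mp h2
    have h4 : (k : ℤ) ≤ d := Int.le_of_dvd hd h3
    have hk0 : 0 < k := by
      rcases Nat.eq_zero_or_pos k with h0 | h0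
      · rw [h0] at hkN; omega
      · exact h0
    have h5 : (k : ℤ) * (N : ℤ) = d * (vq q).ord s := by
      have : ((k * N : ℕ) : ℤ) = (m : ℤ) := by rw [hkN]
      push_cast at this
      linarith
    have hepos : 0 < (vq q).ord s := (hS _).mp (hvqS q)
    have h6 : (k : ℤ) * (vq q).ord s ≤ (k : ℤ) * (N : ℤ) := by
      rw [h5]
      exact mul_le_mul_of_nonneg_right h4 hepos.le
    exact le_of_mul_le_mul_left h6 (by exact_mod_cast hk0)
  -- every place over `c` is some `vq q`
  have hsurj : ∀ v ∈ S, ∃ q, v = vq q := fun v hv =>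
    exists_place_eq s hs w (by rw [← Nat.card_eq_fintype_card, hQ, hfin]) σ hσ hbase hbases hs0
      hK hws v ((hS v).mp hv)
  -- counting
  let Ω := MulAction.orbitRel.Quotient (Subgroup.zpowers g) Q
  haveI : Fintype Ω := Fintype.ofFinite Ω
  let Φ : Ω → Place K F := fun ω => vq (Quotient.out ω)
  let Nω : Ω → ℤ := fun ω => (Nat.card (MulAction.orbit (Subgroup.zpowers g) (Quotient.out ω)) : ℤ)
  have hcardQ : (Nat.card Q : ℤ) = ∑ ω : Ω, Nω ω := by
    rw [Nat.card_congr (MulAction.selfEquivSigmaOrbits (Subgroup.zpowers g) Q), Nat.card_sigma]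
    push_cast
    rfl
  have hΦsurj : ∀ v ∈ S, ∃ ω : Ω, Φ ω = v := by
    intro v hv
    obtain ⟨q, rfl⟩ := hsurj v hv
    refine ⟨Quotient.mk (MulAction.orbitRel (Subgroup.zpowers g) Q) q, ?_⟩
    apply hvorb
    have h : (MulAction.orbitRel (Subgroup.zpowers g) Q)
        (Quotient.out (Quotient.mk (MulAction.orbitRel (Subgroup.zpowers g) Q) q)) q :=
      Quotient.exact (Quotient.out_eq _)
    exact MulAction.orbitRel_apply.mp h
  have hQpos : 0 < Nat.card Q := by rw [hQ]; exact Module.finrank_pos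
  obtain ⟨q₀⟩ : Nonempty Q := (Nat.card_pos_iff.mp hQpos).1
  haveI : Nonempty Ω := ⟨Quotient.mk (MulAction.orbitRel (Subgroup.zpowers g) Q) q₀⟩
  choose! ωv hωv using hΦsurj
  have hinj : Set.InjOn ωv (S : Set (Place K F)) := by
    intro v hv v' hv' h
    rw [← hωv v hv, ← hωv v' hv', h]
  let T : Finset Ω := S.image ωv
  have hNpos : ∀ ω : Ω, 0 < Nω ω := by
    intro ω
    have : Nonempty (MulAction.orbit (Subgroup.zpowers g) (Quotient.out ω)) :=
      ⟨⟨_, MulAction.mem_orbit_self _⟩⟩
    have h0 : 0 < Nat.card (MulAction.orbit (Subgroup.zpowers g) (Quotient.out ω)) := Nat.card_pos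
    show (0 : ℤ) < (Nat.card (MulAction.orbit (Subgroup.zpowers g) (Quotient.out ω)) : ℤ)
    exact_mod_cast h0
  have hle : ∀ u ∈ S, u.ord s ≤ Nω (ωv u) := by
    intro u hu
    have := he (Quotient.out (ωv u))
    have h2 : vq (Quotient.out (ωv u)) = u := hωv u hu
    rw [h2] at this
    exact this
  have h2 : ∑ u ∈ S, Nω (ωv u) = ∑ ω ∈ T, Nω ω := (Finset.sum_image hinj).symm
  have h3 : ∑ ω ∈ T, Nω ω ≤ ∑ ω : Ω, Nω ω :=
    Finset.sum_le_sum_of_subset_of_nonneg (Finset.subset_univ T) (fun j _ _ => (hNpos j).le)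
  have hsumeq : ∑ u ∈ S, u.ord s = ∑ u ∈ S, Nω (ωv u) := by
    apply le_antisymm (Finset.sum_le_sum hle)
    rw [h2, hsum, hfin, ← hQ, hcardQ]
    exact h3
  have hvS : v ∈ S := (hS v).mpr hv
  have := (Finset.sum_eq_sum_iff_of_le hle).mp hsumeq v hvS
  exact ⟨Quotient.out (ωv v), this⟩

/-- The order at a place over `c` divides `m`. -/
theorem ord_dvd_of_orbit {K F : Type*} [Field K] [Field F] [Algebra K F]
    [IsAlgClosed K] [CharZero K]
    (x : F) (hx : Transcendental K x) [FiniteDimensional K⟮x⟯ F] (c : K)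
    {M : Type*} [Field M] (w : Valuation M (WithZero (Multiplicative ℤ)))
    {Q : Type*} [Finite Q] (hQ : Nat.card Q = Module.finrank K⟮x⟯ F)
    (σ : Q → F →+* M) (hσ : Function.Injective σ)
    (hbase : ∀ q q' (a : K), σ q (algebraMap K F a) = σ q' (algebraMap K F a))
    (hbasex : ∀ q q', σ q x = σ q' x)
    (m : ℕ) (hm : 0 < m)
    (hwx : ∀ q, w (σ q (x - algebraMap K F c)) = WithZero.exp (-(m : ℤ)))
    {G : Type*} [Group G] [MulAction G Q] (g : G) (hg : ∀ q : Q, g ^ m • q = q)
    (hgw : ∀ q (f : F), w (σ (g • q) f) = w (σ q f))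
    (hdiv : ∀ q (f : F), f ≠ 0 →
      ((m / Nat.card (MulAction.orbit (Subgroup.zpowers g) q) : ℕ) : ℤ) ∣
        WithZero.log (w (σ q f)))
    (v : Place K F) (hv : 0 < v.ord (x - algebraMap K F c)) :
    ∃ k : ℕ, k ∣ m ∧ v.ord (x - algebraMap K F c) = (k : ℤ) := by
  obtain ⟨q, hq⟩ := ord_eq_card_orbit x hx c w hQ σ hσ hbase hbasex m hm hwx g hg hgw hdiv v hv
  haveI : Finite (MulAction.orbit (Subgroup.zpowers g) q) := Finite.of_injective _ Subtype.val_injective
  exact ⟨_, B4Glue.card_orbit_dvd g q m (hg q), hq⟩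

end Fermat.Agent.S18.H4489
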